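import Fermat.Agent.S36.Mod3.SpecVT
import Fermat.Agent.S36.Mod3.H816.Table
import Fermat.Agent.S36.H972.Mod3Alpha
import Fermat.Agent.S36.H370.Mod3Kron
import Fermat.Agent.S36.H83.AlphaVV

/-!
# S36 / MOD3 — the hub `Mod3.LeafVT`, UNCONDITIONAL (helper835)

`leafVT : Mod3.LeafVT` (Spec `Mod3/SpecVT.lean`, verbatim), assembled from what is on main:

* helper972 `H972.mod3_alpha_main` (the concrete Eisenstein instance): `V_mid`, its uniformiser
  `π = j_{q²} - j`, `π^(q-1) = w · unit`, residue degree one of `V_FF`, `V_mid` along `α`,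
  completeness over `V₁'` along `α`                    (`res_α₁ res_α₂ only_α₁ pi_unif pi_pow`);
* helper816 `Mod3.H816.leafTable`, `H816.IsMid` (`comap_β₂`, Fricke stability of the middle row,
  `V₂ ≠ V₃`) and Fricke transport                                     (`res_β₂ only_β₂`);
* helper370 `H370.resZeroQ`                                                     (`res_β₃`);
* helper83 `h83_beta_unique/insep`, `h83_alpha_unique/insep` at level `M q`, `q ∣ M q`
                                                      (`insep_α₃ insep_β₁ only_α₃ only_β₁`);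
* helper816 `H816.kron_jE` + Fricke                                  (`kron₁ kron₂ kron₃`).
-/

set_option autoImplicit false
set_option linter.unusedSectionVars false
set_option linter.style.haveILetI false
set_option synthInstance.maxHeartbeats 400000
set_option maxHeartbeats 1600000

noncomputable section

namespace Fermat.Agent.S36.Mod3.H835

open ModularCurve AlgebraicCurve
open Fermat.Agent Fermat.Agent.A2.Mod Fermat.Agent.S36.Eng

/-! ## Generalities on valuation subrings -/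

section Gen

variable {F : Type*} [Field F]

/-- `x ϖ⁻¹ ∈ V`, `ϖ ∈ 𝔪_V`, `ϖ ≠ 0` ⟹ `x ∈ 𝔪_V`. -/
theorem mem_nonunits_of_mul_inv835 (V : ValuationSubring F) {x ϖ : F}
    (hϖ : ϖ ∈ V.nonunits) (hϖ0 : ϖ ≠ 0) (h : x * ϖ⁻¹ ∈ V) : x ∈ V.nonunits := by
  have e : x = (x * ϖ⁻¹) * ϖ := by
    rw [mul_assoc, inv_mul_cancel₀ hϖ0, mul_one]
  rw [e]
  exact S36.H816.mul_mem_nonunits_right V h hϖ

theorem isUnif_mem_nonunits835 {V : ValuationSubring F} {t : F} (h : A2.H48.IsUnif V t) :
    t ∈ V.nonunits :=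
  (ValuationSubring.mem_nonunits_iff V).mpr h.val_lt_one

theorem unifAt_of_isUnif835 {V : ValuationSubring F} {t : F} (h : A2.H48.IsUnif V t) :
    UnifAt V t :=
  ⟨h.ne_zero, isUnif_mem_nonunits835 h,
    fun _ hf => h.mul_inv_mem_iff.mpr ((ValuationSubring.mem_nonunits_iff V).mp hf)⟩

/-- `comap` along an involution is an involution. -/
theorem comap_comap_invol835 {E : Type*} [Field E] [Algebra E F] (W : F ≃ₐ[E] F)
    (hW : ∀ f, W (W f) = f) (V : ValuationSubring F) :
    (V.comap (W : F →+* F)).comap (W : F →+* F) = V := by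
  ext f
  rw [ValuationSubring.mem_comap, ValuationSubring.mem_comap]
  show W (W f) ∈ V ↔ f ∈ V
  rw [hW]

end Gen

/-! ## The base is unramified -/

section Unram

variable {P : ValuationSubring Qb} {E : IntermediateField ℚ Qb} {M q : ℕ}
  [NeZero M] [NeZero q] [NeZero (M * q)] {w : RE P E}

/-- `Eng.Unramified` (elementwise) gives helper972's `Unram` (`q = w · unit`). -/
theorem unram_of_std835 (h : Mod3.Std P E M q w) : S36.H972.Unram P E q w := by
  have hS : Setting P E M q w := Mod3.H816.setting_of_std h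
  have hQ : S36.H370.SettingQ P E q w := S36.H370.SettingQ.of_setting hS
  obtain ⟨c0, hc0⟩ := S36.H370.exists_q_eqQ hQ
  have hw0 : (w : E) ≠ 0 := S36.H370.w_ne_zeroQ hQ
  have hq0 : ((q : ℕ) : E) ≠ 0 := Nat.cast_ne_zero.mpr (NeZero.ne q)
  have hwinv : (w : E)⁻¹ ∉ RE P E := S36.H370.w_inv_not_memQ hQ
  -- `w ∈ 𝔪_P`
  have hwP : ((w : E) : Qb) ∈ P.nonunits := by
    rw [ValuationSubring.mem_nonunits_iff_or]
    right
    intro hmem
    apply hwinv
    show algebraMap E Qb ((w : E)⁻¹) ∈ P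
    rw [map_inv₀]
    exact hmem
  have h1 := h.unram.2 (w : E) hwP
  -- `c = w / q ∈ R_E`
  have hc : (w : E) * (((q : ℕ) : E))⁻¹ ∈ RE P E := by
    show algebraMap E Qb ((w : E) * (((q : ℕ) : E))⁻¹) ∈ P
    rw [map_mul, map_inv₀, map_natCast]
    exact h1
  have hc00 : (c0 : E) ≠ 0 := by
    intro h0
    rw [h0, mul_zero] at hc0
    exact hq0 hc0
  have hmul : (c0 : E) * ((w : E) * (((q : ℕ) : E))⁻¹) = 1 := by
    rw [hc0]
    field_simp
  refine ⟨⟨c0, ⟨_, hc⟩, Subtype.ext hmul, Subtype.ext ?_⟩, hc0⟩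
  show ((w : E) * (((q : ℕ) : E))⁻¹) * (c0 : E) = 1
  rw [mul_comm]
  exact hmul

end Unram

/-! ## The hub -/

section Main

/-- **`Mod3.LeafVT`** (the valuation-level table of the concrete objects), unconditional. -/
theorem leafVT : Mod3.LeafVT := by
  intro P E M q _ _ _ w hStd V₁' V₂' V₁ V₂ V₃ W' W hO
  have hS : Setting P E M q w := Mod3.H816.setting_of_std hStd
  have hQ : S36.H370.SettingQ P E q w := S36.H370.SettingQ.of_setting hS
  have hdvr : IsDiscreteValuationRing (RE P E) := hS.dvr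
  haveI := hdvr
  have hq : q.Prime := hS.q_prime
  have hP : P.LiesOverPrime q := hS.lies_over
  have hw : Irreducible w := hS.unif
  have hun : S36.H972.Unram P E q w := unram_of_std835 hStd
  have hT := Mod3.H816.leafTable P E M q w hStd V₁' V₂' V₁ V₂ V₃ W' W hO
  have hqMq : q ∣ M * q := dvd_mul_left q M
  -- the objects
  have hV₁' := hO.vinf'
  have hV₁ := hO.vinf
  have hW' := hO.fricke'
  have hW := hO.fricke
  have h3 := hO.vzero
  have h2' := hO.vzero'
  have hFC := H553.frickeCompat E (M * q) q W' W hW' hW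
  -- the uniformiser `w`
  have hw₁ : A2.H48.IsUnif V₁ (cE P E (M * q * q) w) :=
    (A2.Mod.H708.vinfBasic P E w (M * q * q) (NeZero.ne _) hdvr hw V₁ hV₁).1
  have hw₁nu : cE P E (M * q * q) w ∈ V₁.nonunits := isUnif_mem_nonunits835 hw₁
  have hw0 : cE P E (M * q * q) w ≠ 0 := hw₁.ne_zero
  have hmemW : ∀ (V : ValuationSubring (FE E (M * q * q))) (f : FE E (M * q * q)),
      f ∈ (V.comap (W : FE E (M * q * q) →+* FE E (M * q * q))).nonunits ↔ W f ∈ V.nonunits :=
    fun V f => S36.H816.mem_nonunits_comap_iff _ V f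
  have hw₃nu : cE P E (M * q * q) w ∈ V₃.nonunits := by
    rw [h3, hmemW, S36.H370.fricke_cE]
    exact hw₁nu
  -- the middle valuation ring
  obtain ⟨Vmid, hmne, hmover, hmunif, ⟨u, hu, hui, hpow⟩, hmres, hVres, honly⟩ :=
    S36.H972.mod3_alpha_main hS hun hV₁' hV₁
  have hcα : ∀ g : FE E (M * q), αE E (M * q) q g ∈ V₂ ↔ g ∈ V₁' := fun g => by
    have h := hO.mid
    have h2 : g ∈ V₂.comap (αE E (M * q) q : FE E (M * q) →+* FE E (M * q * q)) ↔ g ∈ V₁' := by
      rw [h]
    rw [ValuationSubring.mem_comap] at h2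
    exact h2
  have hV₂ : V₂ = Vmid := (honly V₂ hcα).resolve_left hO.mid_ne
  have hπ : A2.H48.IsUnif V₂ (jqq E M q - j1 E M q) := by
    rw [hV₂]
    exact hmunif
  have hπnu : jqq E M q - j1 E M q ∈ V₂.nonunits := isUnif_mem_nonunits835 hπ
  have hmid : S36.H816.IsMid V₁' V₂ := ⟨hcα, hπnu⟩
  have hmidW : S36.H816.IsMid V₁' (V₂.comap (W : FE E (M * q * q) →+* FE E (M * q * q))) :=
    hmid.fricke hS hV₁' hW' hW
  -- `V₂ ≠ V₃`
  have hne₂₃ : V₂ ≠ V₃ := by
    intro h
    apply hmid.comap_beta_ne hq hP hV₁'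
    have e1 := hT.comap_β₂
    have e2 := hT.comap_α₃
    have e3 := hT.comap_α₂
    rw [← h] at e2
    exact e1.trans (e2.symm.trans e3)
  -- `V₂` is Fricke-stable
  have hV₂W : V₂.comap (W : FE E (M * q * q) →+* FE E (M * q * q)) = V₂ := by
    rcases honly _ hmidW.comap_alpha with h | h
    · exfalso
      apply hne₂₃
      rw [h3, ← h]
      exact (comap_comap_invol835 W hW.2 V₂).symm
    · rw [h, hV₂]
  -- residue degree one of the middle ring along `α`
  have hresα₂ : ∀ f ∈ V₂, ∃ g ∈ V₁', f - αE E (M * q) q g ∈ V₂.nonunits := by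
    intro f hf
    rw [hV₂] at hf
    obtain ⟨g, hg, h⟩ := hmres f hf
    refine ⟨g, hg, ?_⟩
    rw [← hV₂] at h
    exact mem_nonunits_of_mul_inv835 V₂ hπnu hπ.ne_zero h
  have honlyα₁ : ∀ V : ValuationSubring (FE E (M * q * q)),
      V.comap (αE E (M * q) q : FE E (M * q) →+* FE E (M * q * q)) = V₁' →
        V = V₁ ∨ V = V₂ := by
    intro V hV
    rw [hV₂]
    refine honly V fun g => ?_
    have h2 : g ∈ V.comap (αE E (M * q) q : FE E (M * q) →+* FE E (M * q * q)) ↔ g ∈ V₁' := by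
      rw [hV]
    rw [ValuationSubring.mem_comap] at h2
    exact h2
  -- Kronecker on `V∞`
  have hd1 : 1 * q ∣ M * q * q := ⟨M * q, by ring⟩
  have hdq : q * q ∣ M * q * q := ⟨M, by ring⟩
  have hdM : M ∣ M * q * q := ⟨q * q, by ring⟩
  have hdMq : M * q ∣ M * q * q := ⟨q, rfl⟩
  have e1 : jE E (M * q * q) (1 * q) hd1 = jq E M q :=
    S36.H816.jE_congr (M * q * q) (one_mul q) _ _
  have k1 : jq E M q - j1 E M q ^ q ∈ V₁.nonunits := by
    have h := S36.H816.kron_jE hq hP hV₁ 1 (one_dvd _) hd1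
    rw [e1] at h
    exact h
  have k2 : jqq E M q - jq E M q ^ q ∈ V₁.nonunits :=
    S36.H816.kron_jE hq hP hV₁ q (Dvd.intro_left (M * q) rfl) hdq
  have k3 : jE E (M * q * q) (M * q) hdMq - jE E (M * q * q) M hdM ^ q ∈ V₁.nonunits :=
    S36.H816.kron_jE hq hP hV₁ M hdM hdMq
  have k4 : jE E (M * q * q) (M * q * q) dvd_rfl - jE E (M * q * q) (M * q) hdMq ^ q
      ∈ V₁.nonunits :=
    S36.H816.kron_jE hq hP hV₁ (M * q) hdMq dvd_rfl
  have hWj1 : W (j1 E M q) = jE E (M * q * q) (M * q * q) dvd_rfl :=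
    hW.1 1 (M * q * q) (one_dvd _) dvd_rfl (one_mul _)
  have hWjq : W (jq E M q) = jE E (M * q * q) (M * q) hdMq :=
    hW.1 q (M * q) (Dvd.intro_left (M * q) rfl) hdMq (mul_comm q (M * q))
  have hWjqq : W (jqq E M q) = jE E (M * q * q) M hdM :=
    hW.1 (q * q) M hdq hdM (by ring)
  refine
    { res_α₁ := ?_
      res_α₂ := hresα₂
      res_β₃ := ?_
      res_β₂ := ?_
      insep_α₃ := ?_
      insep_β₁ := ?_
      only_α₁ := honlyα₁
      only_α₃ := ?_
      only_β₂ := ?_
      only_β₁ := ?_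
      pi_unif := unifAt_of_isUnif835 hπ
      pi_pow := ?_
      kron₁ := ⟨k1, k2⟩
      kron₂ := ?_
      kron₃ := ?_ }
  · -- res_α₁
    intro f hf
    obtain ⟨g, hg, h⟩ := hVres f hf
    exact ⟨g, hg, mem_nonunits_of_mul_inv835 V₁ hw₁nu hw0 h⟩
  · -- res_β₃
    intro f hf
    rw [h3] at hf
    obtain ⟨g, hg, h⟩ := S36.H370.resZeroQ hQ hV₁' hV₁ hW' hW hf
    refine ⟨g, ?_, ?_⟩
    · rw [h2']
      exact hg
    · have h' : (f - βE E (M * q) q g) * (cE P E (M * q * q) w)⁻¹ ∈ V₃ := by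
        rw [h3]
        exact h
      exact mem_nonunits_of_mul_inv835 V₃ hw₃nu hw0 h'
  · -- res_β₂
    intro f hf
    have hWf : W f ∈ V₂ := by
      have h : f ∈ V₂.comap (W : FE E (M * q * q) →+* FE E (M * q * q)) := by
        rw [hV₂W]
        exact hf
      exact h
    obtain ⟨g, hg, h⟩ := hresα₂ (W f) hWf
    refine ⟨W' g, ?_, ?_⟩
    · rw [h2', ValuationSubring.mem_comap]
      show W' (W' g) ∈ V₁'
      rw [hW'.2]
      exact hg
    · have e : f - βE E (M * q) q (W' g) = W (W f - αE E (M * q) q g) := by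
        rw [map_sub, hW.2, (hFC g).1]
      rw [e, ← hmemW, hV₂W]
      exact h
  · -- insep_α₃
    intro f hf
    rw [h3] at hf
    obtain ⟨g, hg, h⟩ := S36.H83.h83_alpha_insep W' W hdvr hw hq hqMq hP hW' hW hV₁' hV₁ hf
    refine ⟨g, ?_, ?_⟩
    · rw [h2']
      exact hg
    · have h' : (f ^ q - αE E (M * q) q g) * (cE P E (M * q * q) w)⁻¹ ∈ V₃ := by
        rw [h3]
        exact h
      exact mem_nonunits_of_mul_inv835 V₃ hw₃nu hw0 h'
  · -- insep_β₁
    intro f hf
    obtain ⟨g, hg, h⟩ := S36.H83.h83_beta_insep hdvr hw hq hqMq hP hV₁' hV₁ hf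
    exact ⟨g, hg, mem_nonunits_of_mul_inv835 V₁ hw₁nu hw0 h⟩
  · -- only_α₃
    intro V hV
    rw [h3]
    refine S36.H83.h83_alpha_unique W' W hdvr hw hq hqMq hW' hW hV₁' hV₁ V fun g => ?_
    have h2 : g ∈ V.comap (αE E (M * q) q : FE E (M * q) →+* FE E (M * q * q)) ↔ g ∈ V₂' := by
      rw [hV]
    rw [ValuationSubring.mem_comap, h2'] at h2
    exact h2
  · -- only_β₂
    intro V hV
    have hVβ : ∀ g : FE E (M * q), βE E (M * q) q g ∈ V ↔ W' g ∈ V₁' := fun g => by
      have h2 : g ∈ V.comap (βE E (M * q) q : FE E (M * q) →+* FE E (M * q * q)) ↔ g ∈ V₂' := by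
        rw [hV]
      rw [ValuationSubring.mem_comap, h2', ValuationSubring.mem_comap] at h2
      exact h2
    have hcomap : ∀ g : FE E (M * q),
        αE E (M * q) q g ∈ V.comap (W : FE E (M * q * q) →+* FE E (M * q * q)) ↔ g ∈ V₁' :=
      fun g => by
        rw [ValuationSubring.mem_comap]
        show W (αE E (M * q) q g) ∈ V ↔ g ∈ V₁'
        rw [(hFC g).1, hVβ, hW'.2]
    rcases honly _ hcomap with h | h
    · left
      rw [h3, ← h]
      exact (comap_comap_invol835 W hW.2 V).symm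
    · right
      rw [← hV₂] at h
      have e := comap_comap_invol835 W hW.2 V
      rw [h, hV₂W] at e
      exact e.symm
  · -- only_β₁
    intro V hV
    refine S36.H83.h83_beta_unique hdvr hw hq hqMq hV₁' hV₁ V fun g => ?_
    have h2 : g ∈ V.comap (βE E (M * q) q : FE E (M * q) →+* FE E (M * q * q)) ↔ g ∈ V₁' := by
      rw [hV]
    rw [ValuationSubring.mem_comap] at h2
    exact h2
  · -- pi_pow
    have hπ0 : (jqq E M q - j1 E M q) ^ (q - 1) ≠ 0 := pow_ne_zero _ hπ.ne_zero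
    have hpow' : (jqq E M q - j1 E M q) ^ (q - 1) = cE P E (M * q * q) w * u := hpow
    have hu0 : u ≠ 0 := by
      rintro rfl
      rw [mul_zero] at hpow'
      exact hπ0 hpow'
    have e : algebraMap (RE P E) (FE E (M * q * q)) w * ((jqq E M q - j1 E M q) ^ (q - 1))⁻¹
        = u⁻¹ := by
      rw [hpow']
      show cE P E (M * q * q) w * (cE P E (M * q * q) w * u)⁻¹ = u⁻¹
      field_simp
    rw [e, hV₂]
    exact ⟨inv_ne_zero hu0, hui, by rw [inv_inv]; exact hu⟩
  · -- kron₂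
    refine ⟨?_, hπnu⟩
    have h := hmid.kronA hq hP hV₁' 1 (one_dvd M)
    rw [e1] at h
    exact h
  · -- kron₃
    rw [h3]
    constructor
    · rw [hmemW, map_sub, map_pow, hWj1, hWjq]
      exact k4
    · rw [hmemW, map_sub, map_pow, hWjq, hWjqq]
      exact k3

end Main

end Fermat.Agent.S36.Mod3.H835

end
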